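import Fermat.Agent.S20.H740.Infty

/-!
# S20, reduction-algorithm route (helper740): generation by Cramer's rule, and the main theorem

* `Frame.Unimodular.gen` : a unimodular frame generates all modular forms over the level one forms.
* `exists_nondeg_frame` : the Vandermonde frame `f₀ ^ n`.
* `exists_fundSystem_of_jets` : `exists_fundSystem` of the core skeleton, from the jet statements.
-/

set_option autoImplicit false
set_option linter.unusedSectionVars false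

noncomputable section

namespace Fermat.Agent.S20.H740

open Fermat.Agent.S20
open UpperHalfPlane ModularForm CongruenceSubgroup MatrixGroups Filter EisensteinSeries
open scoped Manifold Topology Real Matrix

local notation "Δ" => ModularForm.discriminant

variable {Γ : Subgroup SL(2, ℤ)}

/-! ### Products and powers of forms for `Γ` -/

theorem mul_mem_MF_self {a k : ℤ} {f g : ℍ → ℂ} (hf : f ∈ MF Γ a) (hg : g ∈ MF Γ k) :
    f * g ∈ MF Γ (a + k) := by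
  obtain ⟨hf1, hf2, hf3⟩ := hf
  obtain ⟨hg1, hg2, hg3⟩ := hg
  refine ⟨hf1.mul hg1, fun γ hγ => ?_, fun γ => ?_⟩
  · rw [ModularForm.mul_slash_SL2, hf2 γ hγ, hg2 γ hγ]
  · rw [ModularForm.mul_slash_SL2]
    exact (hf3 γ).mul (hg3 γ)

theorem one_mem_MF : (1 : ℍ → ℂ) ∈ MF Γ 0 := by
  refine ⟨mdifferentiable_const, fun γ _ => ModularForm.is_invariant_one γ, fun γ => ?_⟩
  rw [ModularForm.is_invariant_one γ]
  exact Filter.const_boundedAtFilter _ (1 : ℂ)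

theorem pow_mem_MF {f : ℍ → ℂ} {k : ℤ} (hf : f ∈ MF Γ k) (t : ℕ) : f ^ t ∈ MF Γ (k * t) := by
  induction t with
  | zero => simpa using one_mem_MF (Γ := Γ)
  | succ t ih =>
    rw [pow_succ']
    have h := mul_mem_MF_self hf ih
    have e : k + k * (t : ℤ) = k * ((t + 1 : ℕ) : ℤ) := by push_cast; ring
    exact e ▸ h

theorem pow_slash (f : ℍ → ℂ) (k : ℤ) (t : ℕ) (γ : SL(2, ℤ)) :
    (f ^ t) ∣[k * t] γ = (f ∣[k] γ) ^ t := by
  induction t with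
  | zero =>
    simp only [Nat.cast_zero, mul_zero, pow_zero]
    exact ModularForm.is_invariant_one γ
  | succ t ih =>
    rw [pow_succ', pow_succ']
    have e : k * ((t + 1 : ℕ) : ℤ) = k + k * (t : ℤ) := by push_cast; ring
    rw [e, ModularForm.mul_slash_SL2, ih]

theorem ev_pow (f : ℍ → ℂ) (k : ℤ) (t : ℕ) (τ : ℍ) (x : X Γ) :
    ev Γ (k * t) τ (f ^ t) x = (ev Γ k τ f x) ^ t := by
  rw [ev_apply, ev_apply, pow_slash]
  rfl

variable [Γ.FiniteIndex]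

attribute [local instance] Subgroup.fintypeQuotientOfFiniteIndex
attribute [local instance] Classical.propDecidable

/-- The Vandermonde frame. -/
theorem exists_nondeg_frame
    (hF : ∃ f₀ ∈ MF Γ 12, ∃ z₀ : ℍ, Function.Injective (ev Γ 12 z₀ f₀)) :
    ∃ 𝔉 : Frame Γ, 𝔉.Nondeg := by
  obtain ⟨f₀, hf₀, z₀, hinj⟩ := hF
  let e : X Γ ≃ Fin (Fintype.card (X Γ)) := Fintype.equivFin (X Γ)
  let 𝔉 : Frame Γ :=
    { wt := fun j => 12 * ((e j : ℕ) : ℤ)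
      F := fun j => f₀ ^ (e j : ℕ)
      mem := fun j => pow_mem_MF hf₀ _ }
  refine ⟨𝔉, z₀, ?_⟩
  have h : 𝔉.mat z₀ = Matrix.of fun x j => (ev Γ 12 z₀ f₀ x) ^ ((e j : Fin _) : ℕ) := by
    ext x j
    simp only [Frame.mat_apply, Matrix.of_apply, 𝔉]
    exact ev_pow f₀ 12 _ z₀ x
  rw [Frame.det, h]
  exact det_pow_ne_zero e _ hinj

namespace Frame

/-- Cramer coefficients of `f` with respect to the frame. -/
def coeff (𝔉 : Frame Γ) (k : ℤ) (f : ℍ → ℂ) (j : X Γ) (τ : ℍ) : ℂ :=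
  ((𝔉.mat τ).updateCol j (ev Γ k τ f)).det / 𝔉.det τ

theorem mulVec_coeff (𝔉 : Frame Γ) (k : ℤ) (f : ℍ → ℂ) (τ : ℍ) (hτ : 𝔉.det τ ≠ 0) :
    (𝔉.mat τ) *ᵥ (fun j => 𝔉.coeff k f j τ) = ev Γ k τ f := by
  have h1 : (fun j => 𝔉.coeff k f j τ) = (𝔉.det τ)⁻¹ • Matrix.cramer (𝔉.mat τ) (ev Γ k τ f) := by
    funext j
    simp only [coeff, Pi.smul_apply, smul_eq_mul, Matrix.cramer_apply]
    rw [div_eq_inv_mul]
  rw [h1, Matrix.mulVec_smul, Matrix.mulVec_cramer, smul_smul]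
  have : (𝔉.det τ)⁻¹ * (𝔉.mat τ).det = 1 := inv_mul_cancel₀ hτ
  rw [this, one_smul]

theorem coeff_unique (𝔉 : Frame Γ) (k : ℤ) (f : ℍ → ℂ) (τ : ℍ) (hτ : 𝔉.det τ ≠ 0)
    (c : X Γ → ℂ) (hc : (𝔉.mat τ) *ᵥ c = ev Γ k τ f) (j : X Γ) : c j = 𝔉.coeff k f j τ := by
  have h1 : (𝔉.mat τ) *ᵥ (c - fun j => 𝔉.coeff k f j τ) = 0 := by
    rw [Matrix.mulVec_sub, hc, mulVec_coeff 𝔉 k f τ hτ, sub_self]
  have h2 := Matrix.eq_zero_of_mulVec_eq_zero hτ h1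
  have h3 := congrFun h2 j
  simpa [sub_eq_zero] using h3

theorem mdiff_coeff (𝔉 : Frame Γ) (hdet : ∀ τ, 𝔉.det τ ≠ 0) {k : ℤ} {f : ℍ → ℂ}
    (hf : MDiff f) (j : X Γ) : MDiff (𝔉.coeff k f j) := by
  have hnum : MDiff (fun τ => ((𝔉.mat τ).updateCol j (ev Γ k τ f)).det) := by
    refine H740.mdiff_det _ fun x l => ?_
    by_cases hl : l = j
    · subst hl
      simp only [Matrix.updateCol_self]
      exact mdiff_ev hf x
    · simp only [Matrix.updateCol_ne hl]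
      exact mdiff_ev (𝔉.mem l).1 x
  have hden : MDiff 𝔉.det := 𝔉.mdiff_det
  rw [UpperHalfPlane.mdifferentiable_iff] at hnum hden ⊢
  have : (𝔉.coeff k f j) ∘ ofComplex =
      fun z => ((fun τ => ((𝔉.mat τ).updateCol j (ev Γ k τ f)).det) ∘ ofComplex) z /
        (𝔉.det ∘ ofComplex) z := rfl
  rw [this]
  exact hnum.div hden fun z _ => hdet _

theorem coeff_smul (𝔉 : Frame Γ) (hdet : ∀ τ, 𝔉.det τ ≠ 0) {k : ℤ} {f : ℍ → ℂ}
    (hf : ∀ γ ∈ Γ, f ∣[k] γ = f) (j : X Γ) (γ : SL(2, ℤ)) (τ : ℍ) :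
    𝔉.coeff k f j (γ • τ) = denom γ τ ^ (k - 𝔉.wt j) * 𝔉.coeff k f j τ := by
  have hd : denom γ τ ≠ 0 := denom_ne_zero γ τ
  refine (coeff_unique 𝔉 k f (γ • τ) (hdet _)
    (fun j => denom γ τ ^ (k - 𝔉.wt j) * 𝔉.coeff k f j τ) ?_ j).symm
  funext x
  have h1 := congrFun (mulVec_coeff 𝔉 k f τ (hdet τ)) (γ⁻¹ • x)
  simp only [Matrix.mulVec, dotProduct] at h1 ⊢
  rw [C0h516.ev_smul hf γ τ x, ← h1, Finset.mul_sum]
  refine Finset.sum_congr rfl fun l _ => ?_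
  rw [mat_smul]
  have : denom γ τ ^ k = denom γ τ ^ (𝔉.wt l) * denom γ τ ^ (k - 𝔉.wt l) := by
    rw [← zpow_add₀ hd]
    congr 1
    ring
  rw [this]
  ring

theorem coeff_slash (𝔉 : Frame Γ) (hdet : ∀ τ, 𝔉.det τ ≠ 0) {k : ℤ} {f : ℍ → ℂ}
    (hf : ∀ γ ∈ Γ, f ∣[k] γ = f) (j : X Γ) (γ : SL(2, ℤ)) :
    (𝔉.coeff k f j) ∣[k - 𝔉.wt j] γ = 𝔉.coeff k f j := by
  funext τ
  rw [ModularForm.SL_slash_apply, coeff_smul 𝔉 hdet hf j γ τ, mul_comm, ← mul_assoc,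
    ← zpow_add₀ (denom_ne_zero γ τ)]
  simp

/-- The matrix of jet functions. -/
def jetMat (𝔉 : Frame Γ) (τ : ℍ) : Matrix (X Γ) (X Γ) ℂ :=
  Matrix.of fun x j => jetFun Γ (𝔉.wt j) (𝔉.F j) τ x

theorem jetMat_mulVec_coeff (𝔉 : Frame Γ) (k : ℤ) (f : ℍ → ℂ) (τ : ℍ) (hτ : 𝔉.det τ ≠ 0) :
    (𝔉.jetMat τ) *ᵥ (fun j => 𝔉.coeff k f j τ) = jetFun Γ k f τ := by
  have h1 : ev Γ k τ f = ∑ j, 𝔉.coeff k f j τ • ev Γ (𝔉.wt j) τ (𝔉.F j) := by
    rw [← mulVec_coeff 𝔉 k f τ hτ]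
    funext x
    simp only [Matrix.mulVec, dotProduct, Finset.sum_apply, Pi.smul_apply, smul_eq_mul, mat_apply]
    exact Finset.sum_congr rfl fun j _ => mul_comm _ _
  funext x
  simp only [Matrix.mulVec, dotProduct, jetMat, Matrix.of_apply]
  rw [jetFun, h1, map_sum, Finset.sum_apply]
  refine Finset.sum_congr rfl fun j _ => ?_
  rw [map_smul, Pi.smul_apply, smul_eq_mul, mul_comm]
  rfl

theorem tendsto_coeff (hjet : JetInputs Γ) {𝔉 : Frame Γ} (hU : 𝔉.Unimodular) {k : ℤ}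
    {f : ℍ → ℂ} (hf : f ∈ MF Γ k) (j : X Γ) :
    ∃ L : ℂ, Tendsto (𝔉.coeff k f j) atImInfty (𝓝 L) := by
  have hJ : ∀ l, ∃ v, HasJet Γ (𝔉.wt l) (𝔉.F l) v := fun l => hjet.exists_hasJet (𝔉.mem l)
  choose J hJ using hJ
  obtain ⟨v, hv⟩ := hjet.exists_hasJet hf
  have hind := hU.2 J hJ
  set 𝒥 : Matrix (X Γ) (X Γ) ℂ := Matrix.of fun x l => J l x with h𝒥
  have hdet𝒥 : 𝒥.det ≠ 0 := by
    have h1 : LinearIndependent ℂ 𝒥.col := hind
    have h2 := Matrix.linearIndependent_cols_iff_isUnit.mp h1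
    exact ((Matrix.isUnit_iff_isUnit_det _).mp h2).ne_zero
  -- entrywise limits
  have hent : ∀ x l, Tendsto (fun τ => 𝔉.jetMat τ x l) atImInfty (𝓝 (𝒥 x l)) := by
    intro x l
    have := (tendsto_pi_nhds.mp (hJ l)) x
    simpa [jetMat, h𝒥] using this
  have hb : ∀ x, Tendsto (fun τ => jetFun Γ k f τ x) atImInfty (𝓝 (v x)) :=
    fun x => (tendsto_pi_nhds.mp hv) x
  have hD : Tendsto (fun τ => (𝔉.jetMat τ).det) atImInfty (𝓝 𝒥.det) :=
    tendsto_det _ _ hent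
  have hN : Tendsto (fun τ => ((𝔉.jetMat τ).updateCol j (jetFun Γ k f τ)).det) atImInfty
      (𝓝 (𝒥.updateCol j v).det) := by
    refine tendsto_det _ _ fun x l => ?_
    by_cases hl : l = j
    · subst hl
      simpa only [Matrix.updateCol_self] using hb x
    · simpa only [Matrix.updateCol_ne hl] using hent x l
  refine ⟨(𝒥.updateCol j v).det / 𝒥.det, (hN.div hD hdet𝒥).congr' ?_⟩
  have hev : ∀ᶠ τ in atImInfty, (𝔉.jetMat τ).det ≠ 0 := hD.eventually_ne hdet𝒥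
  filter_upwards [hev] with τ hτ
  -- Cramer's rule for the jet matrix
  have h1 := jetMat_mulVec_coeff 𝔉 k f τ (hU.1 τ)
  have h2 : Matrix.cramer (𝔉.jetMat τ) (jetFun Γ k f τ)
      = (𝔉.jetMat τ).det • (fun j => 𝔉.coeff k f j τ) := by
    rw [← h1, Matrix.cramer_eq_adjugate_mulVec, Matrix.mulVec_mulVec, Matrix.adjugate_mul,
      Matrix.smul_mulVec, Matrix.one_mulVec]
  have h3 := congrFun h2 j
  rw [Matrix.cramer_apply] at h3
  simp only [Pi.div_apply]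
  rw [h3]
  simp only [Pi.smul_apply, smul_eq_mul]
  field_simp

/-- **Generation by Cramer's rule.** -/
theorem Unimodular.gen (hjet : JetInputs Γ) {𝔉 : Frame Γ} (hU : 𝔉.Unimodular) (k : ℤ)
    (f : ℍ → ℂ) (hf : f ∈ MF Γ k) :
    ∃ c : X Γ → ℍ → ℂ, (∀ j, c j ∈ MF (⊤ : Subgroup SL(2, ℤ)) (k - 𝔉.wt j)) ∧
      f = ∑ j, c j * 𝔉.F j := by
  refine ⟨fun j => 𝔉.coeff k f j, fun j => ?_, ?_⟩
  · have hsl : ∀ γ : SL(2, ℤ), (𝔉.coeff k f j) ∣[k - 𝔉.wt j] γ = 𝔉.coeff k f j :=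
      fun γ => coeff_slash 𝔉 hU.1 hf.2.1 j γ
    refine ⟨mdiff_coeff 𝔉 hU.1 hf.1 j, fun γ _ => hsl γ, fun γ => ?_⟩
    rw [hsl γ]
    obtain ⟨L, hL⟩ := tendsto_coeff hjet hU hf j
    exact hL.isBigO_one ℝ
  · funext τ
    have h1 := congrFun (mulVec_coeff 𝔉 k f τ (hU.1 τ)) (QuotientGroup.mk (1 : SL(2, ℤ)))
    simp only [Matrix.mulVec, dotProduct, mat_apply] at h1
    rw [C0h516.ev_mk hf.2.1, inv_one, SlashAction.slash_one] at h1
    rw [← h1, Finset.sum_apply]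
    refine Finset.sum_congr rfl fun j _ => ?_
    rw [C0h516.ev_mk (𝔉.mem j).2.1, inv_one, SlashAction.slash_one, Pi.mul_apply, mul_comm]

end Frame

/-- **C2-C4 of the core skeleton** (`exists_fundSystem`), from the jet statements. -/
theorem exists_fundSystem_of_jets (hjet : JetInputs Γ) (hneg : -1 ∈ Γ)
    (hF : ∃ f₀ ∈ MF Γ 12, ∃ z₀ : ℍ, Function.Injective (ev Γ 12 z₀ f₀)) :
    Nonempty (FundSystem Γ) := by
  obtain ⟨𝔉₀, hnd⟩ := exists_nondeg_frame hF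
  obtain ⟨𝔉, hU⟩ := 𝔉₀.exists_unimodular hjet hneg hnd
  have hJ : ∀ l, ∃ v, HasJet Γ (𝔉.wt l) (𝔉.F l) v := fun l => hjet.exists_hasJet (𝔉.mem l)
  choose J hJ using hJ
  exact ⟨{
    J := X Γ
    wt := 𝔉.wt
    F := 𝔉.F
    mem := 𝔉.mem
    gen := fun k f hf => hU.gen hjet k f hf
    indep := fun τ => Matrix.linearIndependent_cols_of_det_ne_zero (hU.1 τ)
    jet := J
    hasJet := hJ
    jet_indep := hU.2 J hJ
    card_eq := Nat.card_eq_fintype_card.symm }⟩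

end Fermat.Agent.S20.H740
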