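import Fermat.Agent.S20.Core
import Fermat.Agent.S20.C0_helper516

/-!
# S20, reduction-algorithm route to `exists_fundSystem` (helper740): basic analytic facts

* `exists_mul_ne_zero` : the ring of holomorphic functions on `ℍ` has no zero divisors.
* `mdiff_ev` : the conjugates of a modular form are holomorphic.
* `mdiff_det` : determinants of matrices of holomorphic functions are holomorphic.
-/

set_option autoImplicit false

noncomputable section

namespace Fermat.Agent.S20.H740

open Fermat.Agent.S20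
open UpperHalfPlane ModularForm CongruenceSubgroup MatrixGroups Filter
open scoped Manifold Topology Real

/-- The ring of holomorphic functions on the upper half plane is a domain. -/
theorem exists_mul_ne_zero {f g : ℍ → ℂ} (hf : MDiff f) (hg : MDiff g)
    (hf0 : ∃ τ, f τ ≠ 0) (hg0 : ∃ τ, g τ ≠ 0) : ∃ τ, f τ * g τ ≠ 0 := by
  by_contra hcon0
  have hcon : ∀ τ, f τ * g τ = 0 := fun τ => by
    by_contra h
    exact hcon0 ⟨τ, h⟩
  have hU : IsPreconnected {z : ℂ | 0 < z.im} := (convex_halfSpace_im_gt 0).isPreconnected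
  have hfa : AnalyticOnNhd ℂ (f ∘ ofComplex) {z : ℂ | 0 < z.im} :=
    (UpperHalfPlane.mdifferentiable_iff.mp hf).analyticOnNhd isOpen_upperHalfPlaneSet
  have hga : AnalyticOnNhd ℂ (g ∘ ofComplex) {z : ℂ | 0 < z.im} :=
    (UpperHalfPlane.mdifferentiable_iff.mp hg).analyticOnNhd isOpen_upperHalfPlaneSet
  have hfg : ∀ z ∈ {z : ℂ | 0 < z.im}, (f ∘ ofComplex) z * (g ∘ ofComplex) z = 0 :=
    fun z _ => hcon (ofComplex z)
  obtain ⟨τ₁, h₁⟩ := hf0
  obtain ⟨τ₂, h₂⟩ := hg0
  rcases hfa.eq_zero_or_eq_zero_of_mul_eq_zero hga hfg hU with h | h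
  · apply h₁
    have := h (τ₁ : ℂ) τ₁.im_pos
    simpa using this
  · apply h₂
    have := h (τ₂ : ℂ) τ₂.im_pos
    simpa using this

/-- Finite sums of holomorphic functions on `ℍ` are holomorphic. -/
theorem mdiff_sum {ι : Type*} (s : Finset ι) (f : ι → ℍ → ℂ) (hf : ∀ i ∈ s, MDiff (f i)) :
    MDiff (fun τ => ∑ i ∈ s, f i τ) := by
  classical
  induction s using Finset.induction_on with
  | empty => simpa using (mdifferentiable_const : MDiff (fun _ : ℍ => (0 : ℂ)))
  | insert a s ha ih =>
    simp only [Finset.sum_insert ha]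
    exact (hf a (Finset.mem_insert_self a s)).add
      (ih fun i hi => hf i (Finset.mem_insert_of_mem hi))

/-- Finite products of holomorphic functions on `ℍ` are holomorphic. -/
theorem mdiff_prod {ι : Type*} (s : Finset ι) (f : ι → ℍ → ℂ) (hf : ∀ i ∈ s, MDiff (f i)) :
    MDiff (fun τ => ∏ i ∈ s, f i τ) := by
  classical
  induction s using Finset.induction_on with
  | empty => simpa using (mdifferentiable_const : MDiff (fun _ : ℍ => (1 : ℂ)))
  | insert a s ha ih =>
    simp only [Finset.prod_insert ha]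
    exact (hf a (Finset.mem_insert_self a s)).mul
      (ih fun i hi => hf i (Finset.mem_insert_of_mem hi))

/-- The determinant of a matrix of holomorphic functions is holomorphic. -/
theorem mdiff_det {n : Type*} [Fintype n] [DecidableEq n] (A : ℍ → Matrix n n ℂ)
    (hA : ∀ i j, MDiff (fun τ => A τ i j)) : MDiff (fun τ => (A τ).det) := by
  simp only [Matrix.det_apply]
  refine mdiff_sum _ _ fun σ _ => ?_
  have h1 : MDiff (fun τ => ∏ i, A τ (σ i) i) := mdiff_prod _ _ fun i _ => hA (σ i) i
  have h2 : (fun τ => Equiv.Perm.sign σ • ∏ i, A τ (σ i) i) =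
      fun τ => ((Equiv.Perm.sign σ : ℤ) : ℂ) * ∏ i, A τ (σ i) i := by
    funext τ
    rw [Units.smul_def, zsmul_eq_mul]
  rw [h2]
  exact mdifferentiable_const.mul h1

variable {Γ : Subgroup SL(2, ℤ)}

/-- The conjugates of a holomorphic function are holomorphic. -/
theorem mdiff_ev {k : ℤ} {f : ℍ → ℂ} (hf : MDiff f) (x : X Γ) :
    MDiff (fun τ => ev Γ k τ f x) := by
  have : (fun τ => ev Γ k τ f x) = f ∣[k] (x.out)⁻¹ := rfl
  rw [this, ModularForm.SL_slash]
  exact hf.slash k _

/-- The conjugates of a modular form are bounded at `i∞`. -/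
theorem isBoundedAtImInfty_ev {k : ℤ} {f : ℍ → ℂ} (hf : f ∈ MF Γ k) (x : X Γ) :
    IsBoundedAtImInfty (fun τ => ev Γ k τ f x) :=
  hf.2.2 _

end Fermat.Agent.S20.H740
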