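import Mathlib

/-!
# S20, reduction-algorithm route (helper740): pure linear algebra

* `det_replace_col` : replacing a column by a linear combination of the columns.
* `sum_eigen_class_eq_zero` : a vanishing combination of eigenvectors vanishes eigenvalue-wise.
* `det_pow_ne_zero` : Vandermonde.
* `tendsto_det` : continuity of the determinant.
-/

set_option autoImplicit false

noncomputable section

namespace Fermat.Agent.S20.H740

open Filter Topology

/-- If `B` agrees with `A` outside column `j₀` and `p •` (column `j₀` of `B`) is the combination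
`∑ j, c j •` (column `j` of `A`), then `p * det B = c j₀ * det A`. -/
theorem det_replace_col {n : Type*} [Fintype n] [DecidableEq n] (A B : Matrix n n ℂ) (j₀ : n)
    (p : ℂ) (c : n → ℂ) (h1 : ∀ x j, j ≠ j₀ → B x j = A x j)
    (h2 : ∀ x, p * B x j₀ = ∑ j, c j * A x j) :
    p * B.det = c j₀ * A.det := by
  have hM : ((1 : Matrix n n ℂ).updateCol j₀ c).det = c j₀ := by
    rw [← Matrix.cramer_apply, Matrix.cramer_one]
    rfl
  have hB : (B.updateCol j₀ (p • fun x => B x j₀)).det = p * B.det := by
    rw [Matrix.det_updateCol_smul]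
    congr 2
    ext x j
    by_cases hj : j = j₀
    · subst hj; simp
    · simp [hj]
  have hprod : B.updateCol j₀ (p • fun x => B x j₀) = A * (1 : Matrix n n ℂ).updateCol j₀ c := by
    ext x j
    rw [Matrix.mul_apply]
    by_cases hj : j = j₀
    · subst hj
      simp only [Matrix.updateCol_self, Pi.smul_apply, smul_eq_mul]
      rw [h2 x]
      exact Finset.sum_congr rfl fun l _ => mul_comm _ _
    · simp only [Matrix.updateCol_ne hj]
      rw [h1 x j hj]
      simp [Matrix.one_apply]
  rw [← hB, hprod, Matrix.det_mul, hM, mul_comm]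

/-- A vanishing linear combination of eigenvectors vanishes on each eigenvalue class. -/
theorem sum_eigen_class_eq_zero {V : Type*} [AddCommGroup V] [Module ℂ V] (T : Module.End ℂ V)
    {J : Type*} [Fintype J] (v : J → V) (lam : J → ℂ)
    (hv : ∀ j, T (v j) = lam j • v j) (a : J → ℂ) (ha : ∑ j, a j • v j = 0) (μ : ℂ) :
    ∑ j, (if lam j = μ then a j else 0) • v j = 0 := by
  classical
  set S : Finset ℂ := (Finset.univ.image lam).erase μ with hS
  set p : Polynomial ℂ := ∏ ν ∈ S, (Polynomial.X - Polynomial.C ν) with hp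
  have hq : p.eval μ ≠ 0 := by
    rw [hp, Polynomial.eval_prod]
    refine Finset.prod_ne_zero_iff.mpr fun ν hν => ?_
    simp only [Polynomial.eval_sub, Polynomial.eval_X, Polynomial.eval_C]
    exact sub_ne_zero.mpr (Finset.ne_of_mem_erase hν).symm
  have hz : ∀ j, lam j ≠ μ → p.eval (lam j) = 0 := by
    intro j hj
    rw [hp, Polynomial.eval_prod]
    refine Finset.prod_eq_zero (i := lam j) ?_ (by simp)
    exact Finset.mem_erase.mpr ⟨hj, Finset.mem_image_of_mem _ (Finset.mem_univ _)⟩
  have h1 : (Polynomial.aeval T p) (∑ j, a j • v j) = 0 := by rw [ha, map_zero]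
  rw [map_sum] at h1
  have h2 : ∀ j, (Polynomial.aeval T p) (a j • v j)
      = p.eval μ • ((if lam j = μ then a j else 0) • v j) := by
    intro j
    rw [map_smul, Module.End.aeval_apply_of_mem_apply_eq_smul (hv j)]
    by_cases hj : lam j = μ
    · rw [if_pos hj, hj, smul_comm]
    · rw [if_neg hj, hz j hj]
      simp
  rw [Finset.sum_congr rfl fun j _ => h2 j, ← Finset.smul_sum] at h1
  exact (smul_eq_zero.mp h1).resolve_left hq

/-- Vandermonde determinant indexed by an arbitrary finite type. -/
theorem det_pow_ne_zero {n : Type*} [Fintype n] [DecidableEq n] (e : n ≃ Fin (Fintype.card n))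
    (u : n → ℂ) (hu : Function.Injective u) :
    (Matrix.of fun x j => u x ^ ((e j : Fin (Fintype.card n)) : ℕ)).det ≠ 0 := by
  have h : (Matrix.of fun x j => u x ^ ((e j : Fin (Fintype.card n)) : ℕ))
      = (Matrix.vandermonde (u ∘ e.symm)).submatrix e e := by
    ext x j
    simp [Matrix.vandermonde_apply]
  rw [h, Matrix.det_submatrix_equiv_self]
  exact Matrix.det_vandermonde_ne_zero_iff.mpr (hu.comp e.symm.injective)

/-- Entrywise convergence implies convergence of determinants. -/
theorem tendsto_det {α : Type*} {l : Filter α} {n : Type*} [Fintype n] [DecidableEq n]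
    (A : α → Matrix n n ℂ) (A₀ : Matrix n n ℂ)
    (h : ∀ i j, Tendsto (fun t => A t i j) l (𝓝 (A₀ i j))) :
    Tendsto (fun t => (A t).det) l (𝓝 A₀.det) := by
  have hA : Tendsto A l (𝓝 A₀) :=
    tendsto_pi_nhds.mpr fun i => tendsto_pi_nhds.mpr fun j => h i j
  exact ((continuous_id.matrix_det).tendsto A₀).comp hA

end Fermat.Agent.S20.H740
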