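import Fermat.Agent.S20.H740.Basic
import Fermat.Agent.S20.H740.LinAlg

/-!
# S20, reduction-algorithm route (helper740): frames and the replacement lemma

A *frame* is a family of modular forms for `Γ` indexed by the coset space `X Γ` itself.
Its *fundamental matrix* at `τ` has the vectors of conjugates as columns.
-/

set_option autoImplicit false
set_option linter.unusedSectionVars false

noncomputable section

namespace Fermat.Agent.S20.H740

open Fermat.Agent.S20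
open UpperHalfPlane ModularForm CongruenceSubgroup MatrixGroups Filter
open scoped Manifold Topology Real

/-- A family of modular forms for `Γ` indexed by the coset space. -/
structure Frame (Γ : Subgroup SL(2, ℤ)) where
  wt : X Γ → ℤ
  F : X Γ → ℍ → ℂ
  mem : ∀ j, F j ∈ MF Γ (wt j)

variable {Γ : Subgroup SL(2, ℤ)} [Γ.FiniteIndex]

/-- membership with a propositional weight equation -/
theorem mem_MF_of_eq {k k' : ℤ} {f : ℍ → ℂ} (hf : f ∈ MF Γ k) (h : k = k') : f ∈ MF Γ k' :=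
  h ▸ hf

theorem mul_mem_MF_of_eq {a k n : ℤ} {E f : ℍ → ℂ} (hE : E ∈ MF ⊤ a) (hf : f ∈ MF Γ k)
    (h : a + k = n) : E * f ∈ MF Γ n :=
  mem_MF_of_eq (C0h516.mul_mem_MF hE hf) h

theorem ev_mul_of_eq {a k n : ℤ} {E : ℍ → ℂ} (hE : E ∈ MF ⊤ a) (f : ℍ → ℂ) (τ : ℍ)
    (h : a + k = n) : ev Γ n τ (E * f) = E τ • ev Γ k τ f := by
  subst h
  exact C0h516.ev_mul hE f τ

attribute [local instance] Subgroup.fintypeQuotientOfFiniteIndex
attribute [local instance] Classical.propDecidable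

namespace Frame

/-- The fundamental matrix of a frame. -/
def mat (𝔉 : Frame Γ) (τ : ℍ) : Matrix (X Γ) (X Γ) ℂ :=
  Matrix.of fun x j => ev Γ (𝔉.wt j) τ (𝔉.F j) x

/-- The determinant of the fundamental matrix. -/
def det (𝔉 : Frame Γ) (τ : ℍ) : ℂ := (𝔉.mat τ).det

/-- The fundamental matrix is invertible somewhere. -/
def Nondeg (𝔉 : Frame Γ) : Prop := ∃ τ, 𝔉.det τ ≠ 0

/-- The total weight. -/
def total (𝔉 : Frame Γ) : ℤ := ∑ j, 𝔉.wt j

theorem mat_apply (𝔉 : Frame Γ) (τ : ℍ) (x j : X Γ) :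
    𝔉.mat τ x j = ev Γ (𝔉.wt j) τ (𝔉.F j) x := rfl

theorem mdiff_det (𝔉 : Frame Γ) : MDiff 𝔉.det :=
  H740.mdiff_det (fun τ => 𝔉.mat τ) fun x j => mdiff_ev (𝔉.mem j).1 x

theorem F_ne_zero {𝔉 : Frame Γ} (hnd : 𝔉.Nondeg) (j : X Γ) : 𝔉.F j ≠ 0 := by
  intro h
  obtain ⟨τ, hτ⟩ := hnd
  apply hτ
  refine Matrix.det_eq_zero_of_column_eq_zero j fun x => ?_
  rw [mat_apply, h, map_zero]
  rfl

theorem wt_nonneg {𝔉 : Frame Γ} (hnd : 𝔉.Nondeg) (j : X Γ) : 0 ≤ 𝔉.wt j := by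
  by_contra h
  have h1 := C0h516.MF_eq_bot_of_neg Γ (lt_of_not_ge h)
  have h2 : 𝔉.F j ∈ (⊥ : Submodule ℂ (ℍ → ℂ)) := h1 ▸ 𝔉.mem j
  exact F_ne_zero hnd j ((Submodule.mem_bot ℂ).mp h2)

theorem wt_even (hneg : -1 ∈ Γ) {𝔉 : Frame Γ} (hnd : 𝔉.Nondeg) (j : X Γ) : Even (𝔉.wt j) := by
  by_contra h
  have h1 := C0h516.MF_eq_bot_of_odd Γ hneg (Int.not_even_iff_odd.mp h)
  have h2 : 𝔉.F j ∈ (⊥ : Submodule ℂ (ℍ → ℂ)) := h1 ▸ 𝔉.mem j
  exact F_ne_zero hnd j ((Submodule.mem_bot ℂ).mp h2)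

theorem total_nonneg {𝔉 : Frame Γ} (hnd : 𝔉.Nondeg) : 0 ≤ 𝔉.total :=
  Finset.sum_nonneg fun j _ => wt_nonneg hnd j

/-- **Replacement lemma.** If `P * g = ∑ j, c j * F j` with level one coefficients, `c j₀ ≢ 0`,
and the weight of `g` is smaller than that of `F j₀`, then replacing `F j₀` by `g` gives a
nondegenerate frame of smaller total weight. -/
theorem replace (𝔉 : Frame Γ) (hnd : 𝔉.Nondeg) (j₀ : X Γ) {k w : ℤ} {P : ℍ → ℂ}
    (hP : P ∈ MF ⊤ w) (c : X Γ → ℍ → ℂ) (hc : ∀ j, c j ∈ MF ⊤ (k - 𝔉.wt j))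
    (hc0 : ∃ τ, c j₀ τ ≠ 0) {g : ℍ → ℂ} (hg : g ∈ MF Γ (k - w))
    (hfg : P * g = ∑ j, c j * 𝔉.F j) (hk : k - w < 𝔉.wt j₀) :
    ∃ 𝔉' : Frame Γ, 𝔉'.Nondeg ∧ 𝔉'.total < 𝔉.total := by
  let 𝔉' : Frame Γ :=
    { wt := Function.update 𝔉.wt j₀ (k - w)
      F := Function.update 𝔉.F j₀ g
      mem := fun j => by
        by_cases hj : j = j₀
        · subst hj
          simpa using hg
        · simpa [Function.update_of_ne hj] using 𝔉.mem j }
  refine ⟨𝔉', ?_, ?_⟩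
  · -- nondegenerate
    have key : ∀ τ, P τ * 𝔉'.det τ = c j₀ τ * 𝔉.det τ := by
      intro τ
      refine det_replace_col (𝔉.mat τ) (𝔉'.mat τ) j₀ (P τ) (fun j => c j τ) ?_ ?_
      · intro x j hj
        simp only [mat_apply, 𝔉', Function.update_of_ne hj]
      · intro x
        have h1 : 𝔉'.mat τ x j₀ = ev Γ (k - w) τ g x := by
          simp only [mat_apply, 𝔉', Function.update_self]
        have h2 : ev Γ k τ (P * g) = P τ • ev Γ (k - w) τ g :=
          ev_mul_of_eq hP g τ (by ring)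
        have h3 : ev Γ k τ (∑ j, c j * 𝔉.F j) = ∑ j, c j τ • ev Γ (𝔉.wt j) τ (𝔉.F j) := by
          rw [map_sum]
          exact Finset.sum_congr rfl fun j _ => ev_mul_of_eq (hc j) (𝔉.F j) τ (by ring)
        rw [h1]
        have h4 := congrFun (h2.symm.trans ((congrArg (ev Γ k τ) hfg).trans h3)) x
        simpa [mat_apply, Finset.sum_apply] using h4
    obtain ⟨τ, hτ⟩ := exists_mul_ne_zero (hc j₀).1 𝔉.mdiff_det hc0 hnd
    refine ⟨τ, fun h0 => hτ ?_⟩
    rw [← key τ, h0, mul_zero]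
  · -- total weight drops
    have h1 : 𝔉'.total = ∑ j, Function.update 𝔉.wt j₀ (k - w) j := rfl
    have h2 : 𝔉.total = ∑ j, 𝔉.wt j := rfl
    rw [h1, h2, Finset.sum_update_of_mem (Finset.mem_univ j₀),
      ← Finset.add_sum_erase Finset.univ 𝔉.wt (Finset.mem_univ j₀)]
    have : Finset.univ \ {j₀} = Finset.univ.erase j₀ := by
      ext; simp
    rw [this]
    linarith

/-- Equivariance of the fundamental matrix. -/
theorem mat_smul (𝔉 : Frame Γ) (γ : SL(2, ℤ)) (τ : ℍ) (x j : X Γ) :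
    𝔉.mat (γ • τ) x j = denom γ τ ^ (𝔉.wt j) * 𝔉.mat τ (γ⁻¹ • x) j := by
  simp only [mat_apply]
  exact C0h516.ev_smul (𝔉.mem j).2.1 γ τ x

/-- Kernel vectors are transported by the action of `SL(2, ℤ)`. -/
theorem det_smul_eq_zero (𝔉 : Frame Γ) (γ : SL(2, ℤ)) (τ : ℍ) (h : 𝔉.det (γ • τ) = 0) :
    𝔉.det τ = 0 := by
  obtain ⟨v, hv0, hv⟩ := Matrix.exists_mulVec_eq_zero_iff.mpr h
  refine Matrix.exists_mulVec_eq_zero_iff.mp ⟨fun j => denom γ τ ^ (𝔉.wt j) * v j, ?_, ?_⟩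
  · intro h0
    apply hv0
    funext j
    have := congrFun h0 j
    simp only [Pi.zero_apply, mul_eq_zero] at this
    rcases this with h1 | h1
    · exact absurd h1 (zpow_ne_zero _ (denom_ne_zero γ τ))
    · exact h1
  · funext y
    have h1 := congrFun hv (γ • y)
    simp only [Matrix.mulVec, dotProduct, Pi.zero_apply] at h1 ⊢
    rw [← h1]
    refine Finset.sum_congr rfl fun j _ => ?_
    rw [mat_smul, inv_smul_smul]
    ring

end Frame

end Fermat.Agent.S20.H740
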