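import Fermat.Agent.S20.H740.Steps

/-!
# S20, reduction-algorithm route (helper740): the reduction step at `i∞` and termination

The three jet statements of the captain's skeleton (C1.2, C1.3, C1.4) are taken as explicit
hypotheses, bundled in `JetInputs`.
-/

set_option autoImplicit false
set_option linter.unusedSectionVars false

noncomputable section

namespace Fermat.Agent.S20.H740

open Fermat.Agent.S20
open UpperHalfPlane ModularForm CongruenceSubgroup MatrixGroups Filter EisensteinSeries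
open scoped Manifold Topology Real

local notation "Δ" => ModularForm.discriminant

/-- The jet statements C1.2, C1.3, C1.4 of the core skeleton. -/
structure JetInputs (Γ : Subgroup SL(2, ℤ)) : Prop where
  exists_hasJet : ∀ {k : ℤ} {f : ℍ → ℂ}, f ∈ MF Γ k → ∃ v, HasJet Γ k f v
  hasJet_mul : ∀ {a k : ℤ} {E f : ℍ → ℂ}, E ∈ MF (⊤ : Subgroup SL(2, ℤ)) a →
    ∀ {v : X Γ → ℂ}, HasJet Γ k f v → HasJet Γ (a + k) (E * f) (valueAtInfty E • v)
  ker_jet : ∀ {k : ℤ} {f : ℍ → ℂ}, f ∈ MF Γ k → HasJet Γ k f 0 →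
    ∃ g ∈ MF Γ (k - 12), f = Δ * g

variable {Γ : Subgroup SL(2, ℤ)}

/-! ### Linearity of jets -/

theorem jetFun_add (k : ℤ) (f g : ℍ → ℂ) (τ : ℍ) :
    jetFun Γ k (f + g) τ = jetFun Γ k f τ + jetFun Γ k g τ := by
  simp only [jetFun, map_add]

theorem jetFun_smul (k : ℤ) (c : ℂ) (f : ℍ → ℂ) (τ : ℍ) :
    jetFun Γ k (c • f) τ = c • jetFun Γ k f τ := by
  simp only [jetFun, map_smul]

theorem jetFun_zero (k : ℤ) (τ : ℍ) : jetFun Γ k 0 τ = 0 := by
  simp only [jetFun, map_zero]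

theorem hasJet_zero (k : ℤ) : HasJet Γ k 0 0 := by
  have : jetFun Γ k 0 = fun _ => 0 := funext fun τ => jetFun_zero k τ
  rw [HasJet, this]
  exact tendsto_const_nhds

theorem hasJet_add {k : ℤ} {f g : ℍ → ℂ} {v w : X Γ → ℂ} (hf : HasJet Γ k f v)
    (hg : HasJet Γ k g w) : HasJet Γ k (f + g) (v + w) := by
  have : jetFun Γ k (f + g) = fun τ => jetFun Γ k f τ + jetFun Γ k g τ :=
    funext fun τ => jetFun_add k f g τ
  rw [HasJet, this]
  exact Tendsto.add hf hg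

theorem hasJet_smul {k : ℤ} {f : ℍ → ℂ} {v : X Γ → ℂ} (c : ℂ) (hf : HasJet Γ k f v) :
    HasJet Γ k (c • f) (c • v) := by
  have : jetFun Γ k (c • f) = fun τ => c • jetFun Γ k f τ :=
    funext fun τ => jetFun_smul k c f τ
  rw [HasJet, this]
  exact Tendsto.const_smul hf c

theorem hasJet_sum {ι : Type*} (s : Finset ι) {k : ℤ} (f : ι → ℍ → ℂ) (v : ι → X Γ → ℂ)
    (h : ∀ i ∈ s, HasJet Γ k (f i) (v i)) : HasJet Γ k (∑ i ∈ s, f i) (∑ i ∈ s, v i) := by
  classical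
  induction s using Finset.induction_on with
  | empty => simpa using hasJet_zero (Γ := Γ) k
  | insert a s ha ih =>
    rw [Finset.sum_insert ha, Finset.sum_insert ha]
    exact hasJet_add (h a (Finset.mem_insert_self a s))
      (ih fun i hi => h i (Finset.mem_insert_of_mem hi))

theorem hasJet_of_eq {k k' : ℤ} {f : ℍ → ℂ} {v : X Γ → ℂ} (h : HasJet Γ k f v) (hk : k = k') :
    HasJet Γ k' f v := hk ▸ h

theorem hasJet_unique {k : ℤ} {f : ℍ → ℂ} {v w : X Γ → ℂ} (hv : HasJet Γ k f v)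
    (hw : HasJet Γ k f w) : v = w :=
  tendsto_nhds_unique hv hw

variable [Γ.FiniteIndex]

attribute [local instance] Subgroup.fintypeQuotientOfFiniteIndex
attribute [local instance] Classical.propDecidable

namespace Frame

/-- **The reduction step at `i∞`.** -/
theorem step_infty (hjet : JetInputs Γ) (hneg : -1 ∈ Γ) (𝔉 : Frame Γ) (hnd : 𝔉.Nondeg)
    (J : X Γ → X Γ → ℂ) (hJ : ∀ j, HasJet Γ (𝔉.wt j) (𝔉.F j) (J j))
    (hdep : ¬ LinearIndependent ℂ J) :
    ∃ 𝔉' : Frame Γ, 𝔉'.Nondeg ∧ 𝔉'.total < 𝔉.total := by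
  obtain ⟨a, hsum, j₁, hj₁⟩ := Fintype.not_linearIndependent_iff.mp hdep
  have hne : (Finset.univ.filter fun j => a j ≠ 0).Nonempty :=
    ⟨j₁, by simp [hj₁]⟩
  obtain ⟨j₀, hj₀, hmax⟩ := Finset.exists_max_image _ 𝔉.wt hne
  have haj₀ : a j₀ ≠ 0 := by simpa using hj₀
  set k : ℤ := 𝔉.wt j₀ + 4 with hk
  -- the coefficients
  have hc : ∀ j, ∃ c ∈ MF (⊤ : Subgroup SL(2, ℤ)) (k - 𝔉.wt j),
      HasJet Γ k (c * 𝔉.F j) (a j • J j) ∧ (a j ≠ 0 → ∃ τ, c τ ≠ 0) := by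
    intro j
    by_cases haj : a j = 0
    · refine ⟨0, Submodule.zero_mem _, ?_, fun h => absurd haj h⟩
      rw [haj, zero_smul, zero_mul]
      exact hasJet_zero k
    · have hle : 𝔉.wt j ≤ 𝔉.wt j₀ := hmax j (by simp [haj])
      have hev : Even (k - 𝔉.wt j) := by
        have e1 := wt_even hneg hnd j₀
        have e2 := wt_even hneg hnd j
        have e3 : Even (4 : ℤ) := ⟨2, by norm_num⟩
        exact (e1.add e3).sub e2
      obtain ⟨G, hG, -, hGt⟩ := exists_levelOne_generic (k - 𝔉.wt j) (by rw [hk]; linarith) hev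
      have hval : valueAtInfty G = 1 := hGt.limUnder_eq
      refine ⟨a j • G, Submodule.smul_mem _ _ hG, ?_, fun _ => ?_⟩
      · have h1 := hasJet_of_eq (hjet.hasJet_mul hG (hJ j))
          (show k - 𝔉.wt j + 𝔉.wt j = k by ring)
        rw [hval, one_smul] at h1
        have h2 := hasJet_smul (a j) h1
        rwa [← smul_mul_assoc] at h2
      · have hev1 : ∀ᶠ τ in atImInfty, G τ ≠ 0 := hGt.eventually_ne one_ne_zero
        obtain ⟨τ, hτ⟩ := hev1.exists
        exact ⟨τ, by simpa [haj] using hτ⟩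
  choose c hc hcJ hc0 using hc
  have hf : (∑ j, c j * 𝔉.F j) ∈ MF Γ k :=
    Submodule.sum_mem _ fun j _ => mul_mem_MF_of_eq (hc j) (𝔉.mem j) (by ring)
  have hjet0 : HasJet Γ k (∑ j, c j * 𝔉.F j) 0 := by
    have h := hasJet_sum Finset.univ (fun j => c j * 𝔉.F j) (fun j => a j • J j)
      fun j _ => hcJ j
    rwa [hsum] at h
  obtain ⟨g, hg, hfg⟩ := hjet.ker_jet hf hjet0
  exact 𝔉.replace hnd j₀ T5h703.discriminant_mem_MF c hc (hc0 j₀ haj₀) hg hfg.symm
    (by rw [hk]; linarith)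

/-- A frame is *unimodular* if its fundamental matrix is invertible at every point of `ℍ` and
its jets at `i∞` are linearly independent. -/
def Unimodular (𝔉 : Frame Γ) : Prop :=
  (∀ τ, 𝔉.det τ ≠ 0) ∧
    ∀ J : X Γ → X Γ → ℂ, (∀ j, HasJet Γ (𝔉.wt j) (𝔉.F j) (J j)) → LinearIndependent ℂ J

/-- **Termination of the reduction algorithm.** -/
theorem exists_unimodular (hjet : JetInputs Γ) (hneg : -1 ∈ Γ) (𝔉 : Frame Γ)
    (hnd : 𝔉.Nondeg) : ∃ 𝔉' : Frame Γ, 𝔉'.Unimodular := by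
  suffices H : ∀ (n : ℕ) (𝔉 : Frame Γ), 𝔉.Nondeg → 𝔉.total.toNat = n →
      ∃ 𝔉' : Frame Γ, 𝔉'.Unimodular from H _ 𝔉 hnd rfl
  intro n
  induction n using Nat.strong_induction_on with
  | _ n ih =>
    intro 𝔉 hnd hn
    have hlt : ∀ 𝔉' : Frame Γ, 𝔉'.Nondeg → 𝔉'.total < 𝔉.total →
        ∃ 𝔉'' : Frame Γ, 𝔉''.Unimodular := by
      intro 𝔉' hnd' hlt
      have h0 := total_nonneg hnd'
      exact ih 𝔉'.total.toNat (by omega) 𝔉' hnd' rfl
    by_cases h1 : ∀ τ, 𝔉.det τ ≠ 0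
    · by_cases h2 : ∀ J : X Γ → X Γ → ℂ,
          (∀ j, HasJet Γ (𝔉.wt j) (𝔉.F j) (J j)) → LinearIndependent ℂ J
      · exact ⟨𝔉, h1, h2⟩
      · simp only [not_forall] at h2
        obtain ⟨J, hJ, hdep⟩ := h2
        obtain ⟨𝔉', hnd', hlt'⟩ := 𝔉.step_infty hjet hneg hnd J hJ hdep
        exact hlt 𝔉' hnd' hlt'
    · simp only [not_forall, not_not] at h1
      obtain ⟨τ, hτ⟩ := h1
      obtain ⟨𝔉', hnd', hlt'⟩ := 𝔉.step_point hneg hnd τ hτ
      exact hlt 𝔉' hnd' hlt'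

end Frame

end Fermat.Agent.S20.H740
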