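import Fermat.Agent.S20.H740.Frame
import Fermat.Agent.S20.T5U_helper703
import Fermat.Agent.S20.KerEv_helper292

/-!
# S20, reduction-algorithm route (helper740): the reduction steps at points of `ℍ`

If the fundamental matrix of a nondegenerate frame is singular at some point of `ℍ`, there is
a nondegenerate frame of strictly smaller total weight.
-/

set_option autoImplicit false
set_option linter.unusedSectionVars false

noncomputable section

namespace Fermat.Agent.S20.H740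

open Fermat.Agent.S20
open UpperHalfPlane ModularForm CongruenceSubgroup MatrixGroups Filter EisensteinSeries
open scoped Manifold Topology Real

local notation "Δ" => ModularForm.discriminant

/-! ### Level one coefficients -/

theorem one_mem_MF_top : (1 : ℍ → ℂ) ∈ MF (⊤ : Subgroup SL(2, ℤ)) 0 := by
  refine ⟨mdifferentiable_const, fun γ _ => ModularForm.is_invariant_one γ, fun γ => ?_⟩
  rw [ModularForm.is_invariant_one γ]
  exact Filter.const_boundedAtFilter _ (1 : ℂ)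

theorem pow_mem_MF_top {E : ℍ → ℂ} {m : ℤ} (hE : E ∈ MF (⊤ : Subgroup SL(2, ℤ)) m) (t : ℕ) :
    E ^ t ∈ MF (⊤ : Subgroup SL(2, ℤ)) (m * t) := by
  induction t with
  | zero => simpa using one_mem_MF_top
  | succ t ih =>
    rw [pow_succ']
    exact mul_mem_MF_of_eq hE ih (by push_cast; ring)

/-- Level one forms `E₄ ^ α * E₆ ^ β` of any even weight `≥ 4`. -/
theorem exists_levelOne_generic (n : ℤ) (hn : 4 ≤ n) (he : Even n) :
    ∃ G ∈ MF (⊤ : Subgroup SL(2, ℤ)) n, (∀ z, E₄ z ≠ 0 → E₆ z ≠ 0 → G z ≠ 0) ∧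
      Tendsto G atImInfty (𝓝 1) := by
  obtain ⟨α, β, hαβ⟩ : ∃ α β : ℕ, n = 4 * α + 6 * β := by
    obtain ⟨r, hr⟩ := he
    by_cases h4 : n % 4 = 0
    · exact ⟨(n / 4).toNat, 0, by omega⟩
    · exact ⟨((n - 6) / 4).toNat, 1, by omega⟩
  refine ⟨(⇑E₄) ^ α * (⇑E₆) ^ β, ?_, ?_, ?_⟩
  · exact mul_mem_MF_of_eq (pow_mem_MF_top T5h703.E₄_mem_MF α)
      (pow_mem_MF_top T5h703.E₆_mem_MF β) (by rw [hαβ])
  · intro z h4 h6
    simp only [Pi.mul_apply, Pi.pow_apply]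
    exact mul_ne_zero (pow_ne_zero _ h4) (pow_ne_zero _ h6)
  · have h := (L1.tendsto_E₄.pow α).mul (L1.tendsto_E₆.pow β)
    simp only [one_pow, mul_one] at h
    exact h

variable {Γ : Subgroup SL(2, ℤ)} [Γ.FiniteIndex]

attribute [local instance] Subgroup.fintypeQuotientOfFiniteIndex
attribute [local instance] Classical.propDecidable

namespace Frame

/-- Kernel vectors of the fundamental matrix, as vanishing combinations of the columns. -/
theorem exists_kernel (𝔉 : Frame Γ) {z₀ : ℍ} (hs : 𝔉.det z₀ = 0) :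
    ∃ a : X Γ → ℂ, (∃ j, a j ≠ 0) ∧ ∑ j, a j • ev Γ (𝔉.wt j) z₀ (𝔉.F j) = 0 := by
  obtain ⟨a, ha0, ha⟩ := Matrix.exists_mulVec_eq_zero_iff.mpr hs
  refine ⟨a, ?_, ?_⟩
  · by_contra h
    apply ha0
    funext j
    by_contra hj
    exact h ⟨j, hj⟩
  · funext x
    have h1 := congrFun ha x
    simp only [Matrix.mulVec, dotProduct, Pi.zero_apply] at h1
    simp only [Finset.sum_apply, Pi.smul_apply, smul_eq_mul, Pi.zero_apply]
    rw [← h1]
    exact Finset.sum_congr rfl fun j _ => by rw [mat_apply, mul_comm]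

/-- The reduction step, given a kernel vector whose entries are values of level one forms of
the appropriate weights. -/
theorem step_of_kernel (𝔉 : Frame Γ) (hnd : 𝔉.Nondeg) {z₀ : ℍ} {w : ℤ} {P : ℍ → ℂ}
    (hP : LevelOneDivisor z₀ w P) (a : X Γ → ℂ) (j₀ : X Γ) (ha : a j₀ ≠ 0)
    (hker : ∑ j, a j • ev Γ (𝔉.wt j) z₀ (𝔉.F j) = 0) (k : ℤ) (hk : k - w < 𝔉.wt j₀)
    (hc : ∀ j, ∃ c ∈ MF (⊤ : Subgroup SL(2, ℤ)) (k - 𝔉.wt j), c z₀ = a j) :
    ∃ 𝔉' : Frame Γ, 𝔉'.Nondeg ∧ 𝔉'.total < 𝔉.total := by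
  choose c hc hcz using hc
  have hf : (∑ j, c j * 𝔉.F j) ∈ MF Γ k :=
    Submodule.sum_mem _ fun j _ => mul_mem_MF_of_eq (hc j) (𝔉.mem j) (by ring)
  have hev : ev Γ k z₀ (∑ j, c j * 𝔉.F j) = 0 := by
    rw [map_sum, ← hker]
    refine Finset.sum_congr rfl fun j _ => ?_
    rw [ev_mul_of_eq (k := 𝔉.wt j) (hc j) (𝔉.F j) z₀ (by ring), hcz]
  obtain ⟨g, hg, hfg⟩ := KerEv292.ker_ev hP hf hev
  exact 𝔉.replace hnd j₀ hP.mem c hc ⟨z₀, by rw [hcz]; exact ha⟩ hg hfg.symm hk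

/-- The reduction step at a generic point. -/
theorem step_generic (hneg : -1 ∈ Γ) (𝔉 : Frame Γ) (hnd : 𝔉.Nondeg) {z₀ : ℍ}
    (h4 : E₄ z₀ ≠ 0) (h6 : E₆ z₀ ≠ 0) (hs : 𝔉.det z₀ = 0) :
    ∃ 𝔉' : Frame Γ, 𝔉'.Nondeg ∧ 𝔉'.total < 𝔉.total := by
  obtain ⟨a, ⟨j₁, hj₁⟩, hker⟩ := 𝔉.exists_kernel hs
  have hne : (Finset.univ.filter fun j => a j ≠ 0).Nonempty :=
    ⟨j₁, by simp [hj₁]⟩
  obtain ⟨j₀, hj₀, hmax⟩ := Finset.exists_max_image _ 𝔉.wt hne
  have haj₀ : a j₀ ≠ 0 := by simpa using hj₀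
  refine 𝔉.step_of_kernel hnd (T5h703.levelOneDivisor_generic z₀ h4 h6) a j₀ haj₀ hker
    (𝔉.wt j₀ + 4) (by linarith) ?_
  intro j
  by_cases haj : a j = 0
  · exact ⟨0, Submodule.zero_mem _, by simp [haj]⟩
  · have hle : 𝔉.wt j ≤ 𝔉.wt j₀ := hmax j (by simp [haj])
    have hev : Even (𝔉.wt j₀ + 4 - 𝔉.wt j) := by
      have e1 := wt_even hneg hnd j₀
      have e2 := wt_even hneg hnd j
      have e3 : Even (4 : ℤ) := ⟨2, by norm_num⟩
      exact (e1.add e3).sub e2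
    obtain ⟨G, hG, hG0, -⟩ := exists_levelOne_generic (𝔉.wt j₀ + 4 - 𝔉.wt j) (by linarith) hev
    refine ⟨(a j / G z₀) • G, Submodule.smul_mem _ _ hG, ?_⟩
    simp only [Pi.smul_apply, smul_eq_mul]
    exact div_mul_cancel₀ _ (hG0 z₀ h4 h6)

/-- The reduction step at a point with a stabiliser `γ` whose automorphy factor has exact
order `m`, where `E` is a level one form of weight `m` not vanishing at the point. -/
theorem step_elliptic (𝔉 : Frame Γ) (hnd : 𝔉.Nondeg) {z₀ : ℍ} (γ : SL(2, ℤ))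
    (hγ : γ • z₀ = z₀) {m : ℤ} (hm : ∀ n : ℤ, denom γ z₀ ^ n = 1 → m ∣ n)
    {w : ℤ} (hw : 0 < w) {P : ℍ → ℂ} (hP : LevelOneDivisor z₀ w P) {E : ℍ → ℂ}
    (hE : E ∈ MF (⊤ : Subgroup SL(2, ℤ)) m) (hE0 : E z₀ ≠ 0) (hs : 𝔉.det z₀ = 0) :
    ∃ 𝔉' : Frame Γ, 𝔉'.Nondeg ∧ 𝔉'.total < 𝔉.total := by
  obtain ⟨a, ⟨j₁, hj₁⟩, hker⟩ := 𝔉.exists_kernel hs
  have hd : denom γ z₀ ≠ 0 := denom_ne_zero γ z₀
  set T : Module.End ℂ (X Γ → ℂ) := LinearMap.funLeft ℂ ℂ (fun x : X Γ => γ⁻¹ • x) with hT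
  set v : X Γ → (X Γ → ℂ) := fun j => ev Γ (𝔉.wt j) z₀ (𝔉.F j) with hvdef
  set lam : X Γ → ℂ := fun j => denom γ z₀ ^ (-𝔉.wt j) with hlam
  have hv : ∀ j, T (v j) = lam j • v j := by
    intro j
    funext x
    have h1 := C0h516.ev_smul (𝔉.mem j).2.1 γ z₀ x
    rw [hγ] at h1
    simp only [hT, hvdef, hlam, LinearMap.funLeft_apply, Pi.smul_apply, smul_eq_mul]
    rw [h1, ← mul_assoc, ← zpow_add₀ hd]
    simp
  have hker' := sum_eigen_class_eq_zero T v lam hv a hker (lam j₁)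
  set a' : X Γ → ℂ := fun j => if lam j = lam j₁ then a j else 0 with ha'
  have hne : (Finset.univ.filter fun j => a' j ≠ 0).Nonempty :=
    ⟨j₁, by simp [ha', hj₁]⟩
  obtain ⟨j₀, hj₀, hmax⟩ := Finset.exists_max_image _ 𝔉.wt hne
  have haj₀ : a' j₀ ≠ 0 := by simpa using hj₀
  have hlam₀ : lam j₀ = lam j₁ := by
    by_contra h
    apply haj₀
    simp [ha', h]
  refine 𝔉.step_of_kernel hnd hP a' j₀ haj₀ hker' (𝔉.wt j₀) (by linarith) ?_
  intro j
  by_cases haj : a' j = 0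
  · exact ⟨0, Submodule.zero_mem _, by simp [haj]⟩
  · have hle : 𝔉.wt j ≤ 𝔉.wt j₀ := hmax j (by simp [haj])
    have hlamj : lam j = lam j₁ := by
      by_contra h
      apply haj
      simp [ha', h]
    have hone : denom γ z₀ ^ (𝔉.wt j₀ - 𝔉.wt j) = 1 := by
      have h1 : denom γ z₀ ^ (-𝔉.wt j) = denom γ z₀ ^ (-𝔉.wt j₀) := hlamj.trans hlam₀.symm
      rw [sub_eq_add_neg, zpow_add₀ hd, h1, ← zpow_add₀ hd]
      simp
    obtain ⟨t, ht⟩ := hm _ hone
    rcases eq_or_lt_of_le hle with heq | hlt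
    · -- equal weights: constant coefficient
      refine ⟨(a' j) • (1 : ℍ → ℂ), ?_, by simp⟩
      exact Submodule.smul_mem _ _ (mem_MF_of_eq one_mem_MF_top (by rw [heq]; ring))
    · have hm0 : m ≠ 0 := by
        rintro rfl
        rw [zero_mul] at ht
        linarith
      have htm : 0 < m * t := by rw [← ht]; linarith
      -- replace `(m, t)` by `(|m|, |t|)`-free argument: use `E ^ t.natAbs` when `m > 0`
      by_cases hmpos : 0 < m
      · have ht0 : 0 < t := by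
          by_contra h
          have : m * t ≤ 0 := mul_nonpos_of_nonneg_of_nonpos hmpos.le (not_lt.mp h)
          linarith
        have hG : E ^ t.toNat ∈ MF (⊤ : Subgroup SL(2, ℤ)) (𝔉.wt j₀ - 𝔉.wt j) :=
          mem_MF_of_eq (pow_mem_MF_top hE t.toNat)
            (by rw [ht, Int.toNat_of_nonneg ht0.le])
        refine ⟨(a' j / (E ^ t.toNat) z₀) • E ^ t.toNat, Submodule.smul_mem _ _ hG, ?_⟩
        simp only [Pi.smul_apply, smul_eq_mul, Pi.pow_apply]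
        exact div_mul_cancel₀ _ (pow_ne_zero _ hE0)
      · -- `m < 0`: then `MF ⊤ m = ⊥`, contradicting `E z₀ ≠ 0`
        exfalso
        have hmneg : m < 0 := lt_of_le_of_ne (not_lt.mp hmpos) hm0
        have h1 := C0h516.MF_eq_bot_of_neg (⊤ : Subgroup SL(2, ℤ)) hmneg
        have h2 : E ∈ (⊥ : Submodule ℂ (ℍ → ℂ)) := h1 ▸ hE
        rw [Submodule.mem_bot] at h2
        exact hE0 (by rw [h2]; rfl)

end Frame

/-! ### The automorphy factors at `i` and `ρ` -/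

theorem I_zpow_eq_one {n : ℤ} (h : Complex.I ^ n = 1) : (4 : ℤ) ∣ n := by
  have h4 : Complex.I ^ (4 : ℤ) = 1 := by
    have : Complex.I ^ (4 : ℤ) = Complex.I ^ (4 : ℕ) := by norm_cast
    rw [this, Complex.I_pow_four]
  have hn : n = 4 * (n / 4) + n % 4 := (Int.mul_ediv_add_emod n 4).symm
  have hr : Complex.I ^ (n % 4) = 1 := by
    rw [hn, zpow_add₀ Complex.I_ne_zero, zpow_mul, h4, one_zpow, one_mul] at h
    exact h
  have h0 : 0 ≤ n % 4 := Int.emod_nonneg _ (by norm_num)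
  have h3 : n % 4 < 4 := Int.emod_lt_of_pos _ (by norm_num)
  obtain ⟨r, hr'⟩ : ∃ r : ℕ, n % 4 = r := ⟨(n % 4).toNat, (Int.toNat_of_nonneg h0).symm⟩
  rw [hr', zpow_natCast] at hr
  have hr4 : r < 4 := by omega
  interval_cases r
  · omega
  · exfalso
    rw [pow_one] at hr
    have := congrArg Complex.im hr
    simp at this
  · exfalso
    rw [Complex.I_sq] at hr
    have := congrArg Complex.re hr
    norm_num at this
  · exfalso
    rw [Complex.I_pow_three] at hr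
    have := congrArg Complex.im hr
    simp at this

theorem rho_add_one_zpow_eq_one {n : ℤ}
    (h : (((T5h703.rho : ℍ) : ℂ) + 1) ^ n = 1) : (6 : ℤ) ∣ n := by
  set ρ : ℂ := ((T5h703.rho : ℍ) : ℂ) with hρ
  have hrel : ρ * (1 + ρ) = -1 := T5h703.rho_mul_one_add
  have hz : ρ + 1 ≠ 0 := by
    intro h0
    have : ρ * (1 + ρ) = 0 := by rw [add_comm 1 ρ, h0, mul_zero]
    rw [hrel] at this
    norm_num at this
  have h2 : (ρ + 1) ^ 2 = ρ := by linear_combination hrel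
  have h3 : (ρ + 1) ^ 3 = -1 := by linear_combination (ρ + 2) * hrel
  have h6 : (ρ + 1) ^ (6 : ℤ) = 1 := by
    have : (ρ + 1) ^ (6 : ℤ) = ((ρ + 1) ^ 3) ^ 2 := by
      rw [← pow_mul]; norm_cast
    rw [this, h3]; norm_num
  have hn : n = 6 * (n / 6) + n % 6 := (Int.mul_ediv_add_emod n 6).symm
  have hr : (ρ + 1) ^ (n % 6) = 1 := by
    rw [hn, zpow_add₀ hz, zpow_mul, h6, one_zpow, one_mul] at h
    exact h
  have h0 : 0 ≤ n % 6 := Int.emod_nonneg _ (by norm_num)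
  have h5 : n % 6 < 6 := Int.emod_lt_of_pos _ (by norm_num)
  obtain ⟨r, hr'⟩ : ∃ r : ℕ, n % 6 = r := ⟨(n % 6).toNat, (Int.toNat_of_nonneg h0).symm⟩
  rw [hr', zpow_natCast] at hr
  have hr6 : r < 6 := by omega
  interval_cases r
  · omega
  · exfalso
    -- ρ + 1 = 1 ⇒ ρ = 0
    have : ρ = 0 := by linear_combination hr
    rw [this] at hrel
    norm_num at hrel
  · exfalso
    -- (ρ+1)^2 = ρ = 1
    have : ρ = 1 := by rw [← h2]; exact hr
    rw [this] at hrel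
    norm_num at hrel
  · exfalso
    rw [h3] at hr
    norm_num at hr
  · exfalso
    -- (ρ+1)^4 = ρ^2 = 1, and ρ^2 = -1 - ρ
    have h4 : (ρ + 1) ^ 4 = -1 - ρ := by linear_combination (ρ ^ 2 + 3 * ρ + 2) * hrel
    have : ρ = -2 := by linear_combination h4 - hr
    rw [this] at hrel
    norm_num at hrel
  · exfalso
    have h5' : (ρ + 1) ^ 5 = -ρ := by
      linear_combination (ρ ^ 3 + 4 * ρ ^ 2 + 5 * ρ + 1) * hrel
    have : ρ = -1 := by linear_combination h5' - hr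
    rw [this] at hrel
    norm_num at hrel

namespace Frame

/-- **The reduction step at a point of `ℍ`.** -/
theorem step_point (hneg : -1 ∈ Γ) (𝔉 : Frame Γ) (hnd : 𝔉.Nondeg) (z₀ : ℍ)
    (hs : 𝔉.det z₀ = 0) : ∃ 𝔉' : Frame Γ, 𝔉'.Nondeg ∧ 𝔉'.total < 𝔉.total := by
  by_cases h6 : E₆ z₀ = 0
  · obtain ⟨γ₀, hγ₀⟩ := (T5h703.E₆_eq_zero_iff_orbit z₀).mp h6
    have hsI : 𝔉.det UpperHalfPlane.I = 0 := 𝔉.det_smul_eq_zero γ₀ _ (by rw [hγ₀]; exact hs)
    refine 𝔉.step_elliptic hnd ModularGroup.S T5h703.S_smul_I (m := 4) ?_ (w := 6) (by norm_num)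
      T5h703.levelOneDivisor_E₆ T5h703.E₄_mem_MF
      (T5h703.E₄_ne_zero_of_E₆_eq_zero _ T5h703.E₆_I) hsI
    intro n hn
    rw [ModularGroup.denom_S, UpperHalfPlane.coe_I] at hn
    exact I_zpow_eq_one hn
  by_cases h4 : E₄ z₀ = 0
  · obtain ⟨γ₀, hγ₀⟩ := (T5h703.E₄_eq_zero_iff_orbit z₀).mp h4
    have hsρ : 𝔉.det T5h703.rho = 0 := 𝔉.det_smul_eq_zero γ₀ _ (by rw [hγ₀]; exact hs)
    refine 𝔉.step_elliptic hnd (ModularGroup.S * ModularGroup.T) T5h703.ST_smul_rho (m := 6) ?_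
      (w := 4) (by norm_num) T5h703.levelOneDivisor_E₄ T5h703.E₆_mem_MF
      (T5h703.E₆_ne_zero_of_E₄_eq_zero _ T5h703.E₄_rho) hsρ
    intro n hn
    rw [T5h703.denom_ST] at hn
    exact rho_add_one_zpow_eq_one hn
  · exact 𝔉.step_generic hneg hnd h4 h6 hs

end Frame

end Fermat.Agent.S20.H740
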